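/-
S26 / block G (Theorem B, pure field theory, Mathlib only; architect helper187).
LEAF G-29.  The ratio fields of `Va = h (σ V) ^ e` and `Vb = σ φ V`.
Proof.  `ratioField_span_singleton_mul`, `ratioField_pow`, `ratioField_map`, `hgen`, `AlgHom.fieldRange_eq_map`,
`IntermediateField.map_map`.
-/
import Fermat.Agent.S26.G.Ratio.Func

set_option autoImplicit false

universe u

namespace Fermat.Agent.S26.G

open Module IntermediateField

variable {K F F' : Type u} [Field K] [Field F] [Field F'] [Algebra K F] [Algebra K F']

theorem ratioField_Va (σ : F →ₐ[K] F') (V : Submodule K F) (hgen : ratioField V = ⊤) {h : F'}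
    (hh : h ≠ 0) {e : ℕ} (he : 0 < e) :
    ratioField (Submodule.span K {h} * (V.map σ.toLinearMap) ^ e) = σ.fieldRange := by
  rw [ratioField_span_singleton_mul hh, ratioField_pow _ he, ratioField_map, hgen,
    AlgHom.fieldRange_eq_map]

theorem ratioField_Vb (σ : F →ₐ[K] F') (φ : F →ₐ[K] F) (V : Submodule K F)
    (hgen : ratioField V = ⊤) :
    ratioField (V.map (σ.comp φ).toLinearMap) = φ.fieldRange.map σ := by
  rw [ratioField_map, hgen, AlgHom.fieldRange_eq_map, IntermediateField.map_map]

end Fermat.Agent.S26.G
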