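/-
S26 / block G (Theorem B, pure field theory, Mathlib only; architect helper187).
LEAF G-30.  The valuative hypotheses of G2 for `Va ≤ Va ⊔ Vb` and `Vb ≤ Va ⊔ Vb`.
Proof.  For `O` take `ϑ ϑ'` from `hc`; the coercions `((V.map σ.toLinearMap : Submodule K F') : Set F') = σ '' V`
(`Submodule.map_coe`) and `(V.map (σ.comp φ).toLinearMap : Set F') = (fun v => σ (φ v)) '' V` are `rfl`/`Submodule.map_coe`.
`(IsValGen.pow hO _ e).span_singleton_mul hh` and `IsValGen.exists_of_sup`.
-/
import Fermat.Agent.S26.G.VG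

set_option autoImplicit false

universe u

namespace Fermat.Agent.S26.G

open Module IntermediateField

variable {K F F' : Type u} [Field K] [Field F] [Field F'] [Algebra K F] [Algebra K F']

theorem step_hyp (σ : F →ₐ[K] F') (φ : F →ₐ[K] F) (V : Submodule K F) (e : ℕ) {h : F'}
    (hh : h ≠ 0)
    (hc : ∀ O : ValuationSubring F', ContainsConst K O →
      ∃ ϑ ϑ' : F', IsValGen O (σ '' (V : Set F)) ϑ ∧
        IsValGen O ((fun v => σ (φ v)) '' (V : Set F)) ϑ' ∧
        IsValUnit O (ϑ' / (h * ϑ ^ e)))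
    (O : ValuationSubring F') (hO : ContainsConst K O) {w : F'}
    (hw : w ∈ Submodule.span K {h} * (V.map σ.toLinearMap) ^ e ⊔ V.map (σ.comp φ).toLinearMap) :
    (∃ v ∈ Submodule.span K {h} * (V.map σ.toLinearMap) ^ e, v ≠ 0 ∧ w / v ∈ O) ∧
      ∃ v ∈ V.map (σ.comp φ).toLinearMap, v ≠ 0 ∧ w / v ∈ O := by
  obtain ⟨ϑ, ϑ', h1, h2, hu⟩ := hc O hO
  have h1' : IsValGen O ((V.map σ.toLinearMap : Submodule K F') : Set F') ϑ := by
    rw [Submodule.map_coe]
    exact h1
  have h2' : IsValGen O ((V.map (σ.comp φ).toLinearMap : Submodule K F') : Set F') ϑ' := by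
    rw [Submodule.map_coe]
    exact h2
  exact IsValGen.exists_of_sup ((IsValGen.pow hO h1' e).span_singleton_mul hh) h2' hu hw

end Fermat.Agent.S26.G
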