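/-
S26 / block G (Theorem B, pure field theory, Mathlib only; architect helper187).
ASSEMBLY G-31 (G4, one step).
Proof.  `A := V.map σ`, `Va := span {h} * A ^ e`, `Vb := V.map (σ.comp (ψ ^ k))`, `V12 := Va ⊔ Vb` (finite dimensional:
`finiteDimensional_mul`, `finiteDimensional_pow`, `Submodule.finiteDimensional_sup`).  `AlgHom.coe_pow` turns `ψ^[k]` into `ψ ^ k`.
`step_hyp` + `exists_stable` (twice) + `compare` (twice; nonzero elements `h * σ v0 ^ e ∈ Va`, `σ (ψ^k v0) ∈ Vb`).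
`ρa := relfinrank (ratioField Va) (ratioField V12)`, `ρb := relfinrank (ratioField Vb) (ratioField V12)`;
`ratioField_Va`, `ratioField_Vb`, `relfinrank_map_fieldRange` (with `σ.fieldRange = ratioField Va ≤ ratioField V12`):
`ρb = d ^ k * ρa`.  `hilb Va j = hilb V (e * j)` (`hilb_span_singleton_mul`, `hilb_pow`, `hilb_map`), `hilb Vb j = hilb V j`.
`ρa * (d^k * H j) = ρb * Hb j ≤ H12 (j + a) ≤ ρa * Ha (j + a + b)`; cancel `ρa ≠ 0` (`Nat.le_of_mul_le_mul_left`).  Same for the other.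
-/
import Fermat.Agent.S26.G.Hilb.Func
import Fermat.Agent.S26.G.Val.Main
import Fermat.Agent.S26.G.Cmp.Main
import Fermat.Agent.S26.G.Tower
import Fermat.Agent.S26.G.Step.Fields
import Fermat.Agent.S26.G.Step.Hyp

set_option autoImplicit false

universe u

namespace Fermat.Agent.S26.G

open Module IntermediateField

variable {K F F' : Type u} [Field K] [Field F] [Field F'] [Algebra K F] [Algebra K F']

/-- **G4**, one step. -/
theorem step (σ : F →ₐ[K] F') (ψ : F →ₐ[K] F) (V : Submodule K F) [FiniteDimensional K V]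
    (hgen : ratioField V = ⊤) {v0 : F} (hv0 : v0 ∈ V) (h0 : v0 ≠ 0) (k e : ℕ) (he : 0 < e)
    {h : F'} (hh : h ≠ 0)
    (hc : ∀ O : ValuationSubring F', ContainsConst K O →
      ∃ ϑ ϑ' : F', IsValGen O (σ '' (V : Set F)) ϑ ∧
        IsValGen O ((fun v => σ (ψ^[k] v)) '' (V : Set F)) ϑ' ∧
        IsValUnit O (ϑ' / (h * ϑ ^ e))) :
    ∃ c c' : ℕ, (∀ j, (Module.finrank ψ.fieldRange F) ^ k * hilb V j ≤ hilb V (e * (j + c))) ∧
      ∀ j, hilb V (e * j) ≤ (Module.finrank ψ.fieldRange F) ^ k * hilb V (j + c') := by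
  have hfA : FiniteDimensional K ↥((V.map σ.toLinearMap) ^ e) := finiteDimensional_pow _ e
  have hfa : FiniteDimensional K ↥(Submodule.span K {h} * (V.map σ.toLinearMap) ^ e) :=
    finiteDimensional_mul _ _
  have hc' : ∀ O : ValuationSubring F', ContainsConst K O →
      ∃ ϑ ϑ' : F', IsValGen O (σ '' (V : Set F)) ϑ ∧
        IsValGen O ((fun v => σ ((ψ ^ k) v)) '' (V : Set F)) ϑ' ∧
        IsValUnit O (ϑ' / (h * ϑ ^ e)) := by
    simpa only [AlgHom.coe_pow] using hc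
  generalize hVa : Submodule.span K {h} * (V.map σ.toLinearMap) ^ e = Va at hfa
  generalize hVb : V.map (σ.comp (ψ ^ k)).toLinearMap = Vb
  have hfb : FiniteDimensional K Vb := by
    rw [← hVb]
    infer_instance
  have hyp : ∀ O : ValuationSubring F', ContainsConst K O → ∀ w ∈ Va ⊔ Vb,
      (∃ v ∈ Va, v ≠ 0 ∧ w / v ∈ O) ∧ ∃ v ∈ Vb, v ≠ 0 ∧ w / v ∈ O := by
    intro O hO w hw
    rw [← hVa, ← hVb] at hw ⊢
    exact step_hyp σ (ψ ^ k) V e hh hc' O hO hw
  obtain ⟨ma, hsa⟩ := exists_stable Va (Va ⊔ Vb) le_sup_left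
    (fun O hO w hw => (hyp O hO w hw).1)
  obtain ⟨mb, hsb⟩ := exists_stable Vb (Va ⊔ Vb) le_sup_right
    (fun O hO w hw => (hyp O hO w hw).2)
  have hσv0 : σ v0 ≠ 0 := (map_ne_zero σ).mpr h0
  have ha_mem : h * σ v0 ^ e ∈ Va := by
    rw [← hVa]
    exact Submodule.mul_mem_mul (Submodule.mem_span_singleton_self h)
      (Submodule.pow_mem_pow _ (Submodule.mem_map_of_mem (f := σ.toLinearMap) hv0) e)
  have ha_ne : h * σ v0 ^ e ≠ 0 := mul_ne_zero hh (pow_ne_zero _ hσv0)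
  have hb_mem : σ ((ψ ^ k) v0) ∈ Vb := by
    rw [← hVb]
    exact Submodule.mem_map_of_mem (f := (σ.comp (ψ ^ k)).toLinearMap) hv0
  have hb_ne : σ ((ψ ^ k) v0) ≠ 0 := (map_ne_zero σ).mpr ((map_ne_zero (ψ ^ k)).mpr h0)
  obtain ⟨hρa, ⟨a1, hA1⟩, ⟨b1, hB1⟩⟩ := compare Va (Va ⊔ Vb) le_sup_left ha_mem ha_ne ma hsa
  obtain ⟨-, ⟨a2, hA2⟩, ⟨b2, hB2⟩⟩ := compare Vb (Va ⊔ Vb) le_sup_right hb_mem hb_ne mb hsb
  have hEa : ratioField Va = σ.fieldRange := by
    rw [← hVa]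
    exact ratioField_Va σ V hgen hh he
  have hEb : ratioField Vb = (ψ ^ k).fieldRange.map σ := by
    rw [← hVb]
    exact ratioField_Vb σ (ψ ^ k) V hgen
  have hle : σ.fieldRange ≤ ratioField (Va ⊔ Vb) := hEa ▸ ratioField_mono le_sup_left
  have hρ : IntermediateField.relfinrank (ratioField Vb) (ratioField (Va ⊔ Vb)) =
      (Module.finrank ψ.fieldRange F) ^ k *
        IntermediateField.relfinrank (ratioField Va) (ratioField (Va ⊔ Vb)) := by
    rw [hEb, hEa]
    exact relfinrank_map_fieldRange σ ψ k _ hle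
  have hHa : ∀ j, hilb Va j = hilb V (e * j) := fun j => by
    rw [← hVa, hilb_span_singleton_mul hh, hilb_pow, hilb_map]
  have hHb : ∀ j, hilb Vb j = hilb V j := fun j => by
    rw [← hVb, hilb_map]
  rw [hρ] at hA2 hB2
  generalize IntermediateField.relfinrank (ratioField Va) (ratioField (Va ⊔ Vb)) = ρ at *
  generalize Module.finrank ψ.fieldRange F = d at *
  have hρpos : 0 < ρ := Nat.pos_of_ne_zero hρa
  refine ⟨a2 + b1, a1 + b2, fun j => ?_, fun j => ?_⟩
  · have h1 := hA2 j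
    rw [hHb] at h1
    have h2 := hB1 (j + a2)
    rw [hHa] at h2
    have h3 : ρ * (d ^ k * hilb V j) ≤ ρ * hilb V (e * (j + a2 + b1)) := by
      calc ρ * (d ^ k * hilb V j) = d ^ k * ρ * hilb V j := by ring
        _ ≤ _ := h1.trans h2
    have h4 := Nat.le_of_mul_le_mul_left h3 hρpos
    rwa [add_assoc] at h4
  · have h1 := hA1 j
    rw [hHa] at h1
    have h2 := hB2 (j + a1)
    rw [hHb] at h2
    have h3 : ρ * hilb V (e * j) ≤ ρ * (d ^ k * hilb V (j + a1 + b2)) := by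
      calc ρ * hilb V (e * j) ≤ d ^ k * ρ * hilb V (j + a1 + b2) := h1.trans h2
        _ = _ := by ring
    have h4 := Nat.le_of_mul_le_mul_left h3 hρpos
    rwa [add_assoc] at h4

end Fermat.Agent.S26.G
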